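import Fermat.Agent.EC.Torsion.Count
import Mathlib.GroupTheory.Exponent

/-!
# `E[n]` is free of rank two over `ZMod n`

This holds over an algebraically closed field in which `n ≠ 0`.
-/

set_option autoImplicit false

namespace Fermat.Agent.EC.Torsion

open WeierstrassCurve

variable {K : Type*} [Field K] [DecidableEq K] [IsAlgClosed K] (W : Affine K) [W.IsElliptic]

omit [DecidableEq K] [IsAlgClosed K] in
lemma natCast_ne_zero_of_dvd {n m : ℕ} (hn : (n : K) ≠ 0) (h : m ∣ n) : (m : K) ≠ 0 := by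
  obtain ⟨c, rfl⟩ := h
  rw [Nat.cast_mul] at hn
  exact left_ne_zero_of_mul hn

/-- A basis of `E[n]`: points `P`, `Q` such that every `n`-torsion point is uniquely
`a • P + b • Q` with `a b : ZMod n`. -/
theorem exists_addEquiv_torsionBy {n : ℕ} (hn : (n : K) ≠ 0) :
    Nonempty (Submodule.torsionBy ℤ W.Point n ≃+ ZMod n × ZMod n) := by
  have hn0 : n ≠ 0 := by rintro rfl; exact hn Nat.cast_zero
  have : NeZero n := ⟨hn0⟩
  have : Finite (Submodule.torsionBy ℤ W.Point n) := finite_torsionBy W hn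
  set G := Submodule.torsionBy ℤ W.Point n with hG
  have hkill : ∀ g : G, n • g = 0 := fun g =>
    Subtype.ext ((mem_torsionBy_natCast W).mp g.2)
  -- the elements killed by `m ∣ n` form a set of cardinality `m ^ 2`
  have hcard : ∀ m : ℕ, m ∣ n → Nat.card {g : G // m • g = 0} = m ^ 2 := by
    intro m hm
    rw [← natCard_setOf_nsmul_eq_zero W (natCast_ne_zero_of_dvd hn hm)]
    refine Nat.card_congr
      { toFun := fun g => ⟨g.1.1, congrArg Subtype.val g.2⟩
        invFun := fun P => ⟨⟨P.1, (mem_torsionBy_natCast W).mpr ?_⟩, Subtype.ext P.2⟩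
        left_inv := fun g => rfl
        right_inv := fun P => rfl }
    obtain ⟨c, rfl⟩ := hm
    rw [mul_comm m c, mul_nsmul', P.2, nsmul_zero]
  -- every point killed by `n / m` is a multiple by `m` in `G`
  have hdiv : ∀ m k : ℕ, m * k = n → ∀ g : G, k • g = 0 → ∃ g' : G, m • g' = g := by
    intro m k hmk g hg
    obtain ⟨P, hP⟩ := exists_nsmul_eq W (n := m) (by rintro rfl; simp [eq_comm, hn0] at hmk) g.1
    refine ⟨⟨P, (mem_torsionBy_natCast W).mpr ?_⟩, Subtype.ext hP⟩
    rw [← hmk, mul_comm, mul_nsmul', hP]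
    exact congrArg Subtype.val hg
  -- a point of order `n`
  obtain ⟨P, hP⟩ : ∃ P : G, addOrderOf P = n := by
    obtain ⟨P, hP⟩ := AddMonoid.exists_addOrderOf_eq_exponent
      (AddMonoid.ExponentExists.of_finite (G := G))
    refine ⟨P, hP.trans (Nat.dvd_antisymm ?_ ?_)⟩
    · exact AddMonoid.exponent_dvd_of_forall_nsmul_eq_zero hkill
    · have hdvd : AddMonoid.exponent G ∣ n :=
        AddMonoid.exponent_dvd_of_forall_nsmul_eq_zero hkill
      have h1 := hcard _ hdvd
      rw [Nat.card_congr (Equiv.subtypeUnivEquiv fun g =>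
        AddMonoid.exponent_nsmul_eq_zero g), natCard_torsionBy W hn] at h1
      exact (Nat.pow_left_injective two_ne_zero h1).dvd
  -- a point of order `n` modulo `P`
  obtain ⟨Q, hQ⟩ : ∃ Q : G, addOrderOf (Q : G ⧸ AddSubgroup.zmultiples P) = n := by
    have : Finite (G ⧸ AddSubgroup.zmultiples P) := inferInstance
    obtain ⟨q, hq⟩ := AddMonoid.exists_addOrderOf_eq_exponent
      (AddMonoid.ExponentExists.of_finite (G := G ⧸ AddSubgroup.zmultiples P))
    obtain ⟨Q, rfl⟩ := QuotientAddGroup.mk_surjective q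
    refine ⟨Q, hq.trans ?_⟩
    set e := AddMonoid.exponent (G ⧸ AddSubgroup.zmultiples P)
    have hen : e ∣ n := AddMonoid.exponent_dvd_of_forall_nsmul_eq_zero fun x => by
      obtain ⟨g, rfl⟩ := QuotientAddGroup.mk_surjective x
      rw [← QuotientAddGroup.mk_nsmul, hkill, QuotientAddGroup.mk_zero]
    obtain ⟨k, hk⟩ := hen
    suffices k = 1 by rw [hk, this, mul_one]
    have hk0 : k ≠ 0 := by rintro rfl; simp [hn0] at hk
    have hkn : k ∣ n := ⟨e, by rw [hk, mul_comm]⟩
    -- every `k`-torsion element lies in `⟨P⟩`, in which there are only `k` of them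
    have hsub : ∀ g : G, k • g = 0 → g ∈ AddSubgroup.zmultiples P := by
      intro g hg
      obtain ⟨g', rfl⟩ := hdiv e k hk.symm g hg
      rw [← QuotientAddGroup.eq_zero_iff, QuotientAddGroup.mk_nsmul]
      exact AddMonoid.exponent_nsmul_eq_zero _
    have hle : k ^ 2 ≤ k := by
      rw [← hcard k hkn]
      have : Finite {g : AddSubgroup.zmultiples P // k • g = 0} := Subtype.finite
      refine le_trans (Nat.card_le_card_of_injective
        (fun g : {g : G // k • g = 0} =>
          (⟨⟨g.1, hsub g.1 g.2⟩, Subtype.ext g.2⟩ :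
            {g : AddSubgroup.zmultiples P // k • g = 0}))
        fun a b h => Subtype.ext (congrArg (fun x => (x.1.1 : G)) h)) ?_
      classical
      have : Fintype (AddSubgroup.zmultiples P) := Fintype.ofFinite _
      rw [Nat.card_eq_fintype_card, Fintype.card_subtype]
      exact IsAddCyclic.card_nsmul_eq_zero_le (Nat.pos_of_ne_zero hk0)
    rcases Nat.lt_or_ge 1 k with h | h
    · nlinarith
    · omega
  -- the coordinate map
  let f : ZMod n →+ G := ZMod.lift n ⟨zmultiplesHom G P, by simp [hkill]⟩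
  let g : ZMod n →+ G := ZMod.lift n ⟨zmultiplesHom G Q, by simp [hkill]⟩
  have hinj : Function.Injective (f.coprod g) := by
    rw [injective_iff_map_eq_zero]
    rintro ⟨a, b⟩ hab
    obtain ⟨a, rfl⟩ := ZMod.intCast_surjective a
    obtain ⟨b, rfl⟩ := ZMod.intCast_surjective b
    simp [f, g] at hab
    have hb : (n : ℤ) ∣ b := by
      rw [← hQ, addOrderOf_dvd_iff_zsmul_eq_zero, ← QuotientAddGroup.mk_zsmul,
        QuotientAddGroup.eq_zero_iff]
      exact ⟨-a, by simpa [add_eq_zero_iff_neg_eq] using hab⟩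
    obtain ⟨b', rfl⟩ := hb
    rw [mul_comm, mul_zsmul', natCast_zsmul, hkill, add_zero] at hab
    have ha : (n : ℤ) ∣ a := by rwa [← hP, addOrderOf_dvd_iff_zsmul_eq_zero]
    simp [(ZMod.intCast_zmod_eq_zero_iff_dvd a n).mpr ha, Int.cast_mul]
  refine ⟨(AddEquiv.ofBijective (f.coprod g) ((Nat.bijective_iff_injective_and_card _).mpr
    ⟨hinj, ?_⟩)).symm⟩
  rw [natCard_torsionBy W hn, Nat.card_prod, Nat.card_zmod, sq]

end Fermat.Agent.EC.Torsion
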